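/-
T2-E (helper4), file 1: **S30 with unipotent inertia + reducedness of the Hecke algebra ⟹ S34**.

`T2zS30U` is the statement S30 with the additional conclusion that the representation has unipotent
inertia at the primes `q ≠ p` with `q ∥ N`.  `s34_of_s30u : T2zS30U → IsReduced 𝕋 → (statement S34)`.

As in `Lib/S31/Trace/Main.lean` (whose lemmas are reused): for `σ` in an inertia group at `q`, on a
finite level `σ` is a Frobenius power `φ ^ b` (`l ∉ S`), so `tr ρ(σ) ≡ P_b(π T_l, l)` modulo `𝔪_T ^ n`;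
all `p`-adic points of `𝕋` send `t := P_b(T_l, l) - 2` into `p ^ (n + c)` (the representations
attached to them by `T2zS30U` have `tr ρ_ψ(σ) = 2`), hence `t ∈ p ^ n 𝕋` by the congruence lemma
(reducedness).  So `tr ρ(σ) = 2` for all `σ` in the inertia group, in particular for `σ²`, and
`tr(σ²) = tr(σ)² - 2 det(σ)` gives `det ρ(σ) = 1` (`T` is torsion-free).
-/
import Mathlib
import Fermat.Agent.Lib.S31.Trace.Main
import Fermat.Prelude.Def_GaloisRep_LocalConditions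
set_option autoImplicit false
set_option linter.style.haveILetI false
set_option linter.unusedSectionVars false

open Polynomial IsLocalRing CuspForm Fermat.Agent.S31T

namespace Fermat.Agent.T2

local notation "Qbar" => AlgebraicClosure ℚ
local notation "GQ" => (AlgebraicClosure ℚ ≃ₐ[ℚ] AlgebraicClosure ℚ)

/-- the statement S30 with the additional conclusion that the representation has unipotent inertia
at the primes `q ≠ p` dividing the level exactly once -/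
def T2zS30U : Prop :=
    ∀ (p : ℕ) [Fact p.Prime] (N : ℕ) [NeZero N] (S : Finset ℕ)
      (_hpS : p ∈ S) (_hNS : ∀ q : ℕ, q.Prime → q ∣ N → q ∈ S)
      (𝒪' : Type) [CommRing 𝒪'] [IsDomain 𝒪'] [IsDiscreteValuationRing 𝒪']
      [IsAdicComplete (IsLocalRing.maximalIdeal 𝒪') 𝒪'] [Finite (IsLocalRing.ResidueField 𝒪')]
      [CharZero 𝒪'] (_hp𝒪' : (p : 𝒪') ∈ IsLocalRing.maximalIdeal 𝒪')
      (χ : CuspForm.heckeAlgebra N 2 (↑S : Set ℕ) →+* 𝒪'),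
      ∃ (𝒪'' : Type) (_ : CommRing 𝒪'') (_ : IsDomain 𝒪'') (_ : IsDiscreteValuationRing 𝒪'')
        (_ : IsAdicComplete (IsLocalRing.maximalIdeal 𝒪'') 𝒪'')
        (_ : Finite (IsLocalRing.ResidueField 𝒪'')) (_ : CharZero 𝒪'')
        (_ : Algebra 𝒪' 𝒪'') (_ : Module.Finite 𝒪' 𝒪'') (_ : IsLocalHom (algebraMap 𝒪' 𝒪'')),
      Function.Injective (algebraMap 𝒪' 𝒪'') ∧
      ∃ ρ : GaloisRepAdic 𝒪'',
        (∀ (ℓ : ℕ) (hℓ : ℓ.Prime) (hℓN : ¬ ℓ ∣ N) (hℓS : ℓ ∉ (↑S : Set ℕ)),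
          ∀ A : ValuationSubring (AlgebraicClosure ℚ), A.LiesOverPrime ℓ →
            ∀ σ : AlgebraicClosure ℚ ≃ₐ[ℚ] AlgebraicClosure ℚ, A.IsFrobeniusAt σ ℓ →
              LinearMap.charpoly (ρ.ρ σ) =
                X ^ 2 - C (algebraMap 𝒪' 𝒪'' (χ (CuspForm.heckeAlgebra.T hℓ hℓN hℓS))) * X
                  + C ((ℓ : 𝒪''))) ∧
        (∀ q : ℕ, q.Prime → ¬ q ∣ N → q ≠ p → ρ.IsUnramifiedAt q) ∧
        (∀ q : ℕ, q.Prime → q ≠ p → q ∣ N → ¬ q ^ 2 ∣ N → ρ.IsUnipotentOnInertiaAt q)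

/-- the representation attached to a `p`-adic point of the Hecke algebra, with unipotent inertia -/
theorem t2z_point_rep (h30 : T2zS30U) (p : ℕ) [Fact p.Prime] (N : ℕ) [NeZero N] (S : Finset ℕ)
    (hpS : p ∈ S) (hNS : ∀ q : ℕ, q.Prime → q ∣ N → q ∈ S)
    (ψ : heckeAlgebra N 2 (↑S : Set ℕ) →+* S31tOmega p) :
    ∃ (𝒪'' : Type) (_ : CommRing 𝒪'') (_ : IsLocalRing 𝒪'') (ρ : GaloisRepAdic 𝒪'')
      (κ : heckeAlgebra N 2 (↑S : Set ℕ) →+* 𝒪'') (e : ℕ),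
      (∀ (ℓ : ℕ) (hℓ : ℓ.Prime) (hℓN : ¬ ℓ ∣ N) (hℓS : ℓ ∉ (↑S : Set ℕ)),
        ∀ A : ValuationSubring Qbar, A.LiesOverPrime ℓ → ∀ σ : GQ, A.IsFrobeniusAt σ ℓ →
          LinearMap.charpoly (ρ.ρ σ) =
            X ^ 2 - C (κ (heckeAlgebra.T hℓ hℓN hℓS)) * X + C ((ℓ : 𝒪''))) ∧
      (∀ q : ℕ, q.Prime → q ≠ p → q ∣ N → ¬ q ^ 2 ∣ N → ρ.IsUnipotentOnInertiaAt q) ∧
      (∀ (M : ℕ) (t : heckeAlgebra N 2 (↑S : Set ℕ)), κ t ∈ maximalIdeal 𝒪'' ^ (e * M) →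
        ∃ a ∈ s31tInt p, ψ t = (p : S31tOmega p) ^ M * a) := by
  haveI : Module.Finite ℤ (heckeAlgebra N 2 (↑S : Set ℕ)) :=
    Fermat.Agent.S22Lib.moduleFinite_heckeAlgebra N 2 _
  obtain ⟨𝒪, i1, i2, i3, i4, i5, i6, χ, ι, hp𝒪, hι, hιA⟩ := s31t_exists_dvr_of_point p ψ
  obtain ⟨𝒪'', j1, j2, j3, j4, j5, j6, j7, j8, j9, hinj, ρ, hfrob, -, huni⟩ :=
    h30 p N S hpS hNS 𝒪 hp𝒪 χ
  have hp0 : (p : 𝒪'') ≠ 0 := by exact_mod_cast (Fact.out : p.Prime).ne_zero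
  obtain ⟨e, he⟩ := s31t_exists_ramification (p : 𝒪'') hp0
  refine ⟨𝒪'', inferInstance, inferInstance, ρ, (algebraMap 𝒪 𝒪'').comp χ, e, hfrob, huni, ?_⟩
  intro M t ht
  have h1 : (p : 𝒪'') ^ M ∣ algebraMap 𝒪 𝒪'' (χ t) := he M _ ht
  have h2 : algebraMap 𝒪 𝒪'' ((p : 𝒪) ^ M) ∣ algebraMap 𝒪 𝒪'' (χ t) := by
    rwa [map_pow, map_natCast]
  have h3 : (p : 𝒪) ^ M ∣ χ t := by
    refine s31t_dvd_of_map_dvd (algebraMap 𝒪 𝒪'') _ _ ?_ h2
    rw [map_pow, map_natCast]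
    exact pow_ne_zero M hp0
  obtain ⟨y, hy⟩ := h3
  refine ⟨ι y, hιA y, ?_⟩
  rw [← hι, hy, map_mul, map_pow, map_natCast]

/-- the trace of an endomorphism of a plane with characteristic polynomial `(X - 1) ^ 2` -/
theorem t2z_trace_of_unipotent {R V : Type*} [CommRing R] [Nontrivial R] [AddCommGroup V]
    [Module R V] [Module.Free R V] [Module.Finite R V] (hV : Module.finrank R V = 2)
    (f : Module.End R V) (hf : LinearMap.charpoly f = (X - 1) ^ 2) :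
    LinearMap.trace R V f = 2 := by
  have h1 : LinearMap.charpoly f = X ^ 2 - C (2 : R) * X + C (1 : R) := by
    rw [hf, map_ofNat, map_one]
    ring
  have := s31t_trace_pow hV f 2 1 h1 1
  rwa [pow_one, s31tPow_one] at this

/-- **the congruence at a point**: on a suitable finite level, the value of the point at the
power trace attached to `σ` in an inertia group at `q ∥ N` is congruent to `2` modulo `p ^ M` -/
theorem t2z_point_congr (h30 : T2zS30U) (p : ℕ) [Fact p.Prime] (N : ℕ) [NeZero N] (S : Finset ℕ)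
    (hpS : p ∈ S) (hNS : ∀ q : ℕ, q.Prime → q ∣ N → q ∈ S)
    (ψ : heckeAlgebra N 2 (↑S : Set ℕ) →+* S31tOmega p)
    (q : ℕ) (hq : q.Prime) (hqp : q ≠ p) (hqN : q ∣ N) (hq2 : ¬ q ^ 2 ∣ N) (M : ℕ) :
    ∃ L : IntermediateField ℚ Qbar, FiniteDimensional ℚ L ∧
      ∀ (P : ValuationSubring Qbar), P.LiesOverPrime q → ∀ σ ∈ P.inertiaSubgroupIn ℚ,
      ∀ (l : ℕ) (hl : l.Prime) (hlN : ¬ l ∣ N) (hlS : l ∉ (↑S : Set ℕ))
        (P₁ : ValuationSubring Qbar) (φ₁ : GQ) (b₁ : ℕ),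
        P₁.LiesOverPrime l → P₁.IsFrobeniusAt φ₁ l → (∀ x ∈ L, σ x = (φ₁ ^ b₁) x) →
      ∃ a ∈ s31tInt p,
        ψ (s31tPow (heckeAlgebra.T hl hlN hlS) (l : heckeAlgebra N 2 (↑S : Set ℕ)) b₁ - 2)
          = (p : S31tOmega p) ^ M * a := by
  obtain ⟨𝒪'', i1, i2, ρ, κ, e, hfrob, huni, hdiv⟩ := t2z_point_rep h30 p N S hpS hNS ψ
  obtain ⟨L, hLfin, hL⟩ := ρ.isAdicContinuous (e * M)
  refine ⟨L, hLfin, ?_⟩
  intro P hP σ hσ l hl hlN hlS P₁ φ₁ b₁ hP₁ hφ₁ hg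
  apply hdiv
  have hσ2 : LinearMap.trace 𝒪'' ρ.V (ρ.ρ σ) = 2 :=
    t2z_trace_of_unipotent ρ.finrank_eq _ (huni q hq hqp hqN hq2 P hP σ hσ)
  have h1 := s31t_trace_congr ρ (e * M) L hL σ φ₁ b₁ hg _ _ (hfrob l hl hlN hlS P₁ hP₁ φ₁ hφ₁)
  rw [hσ2] at h1
  rw [map_sub, map_s31tPow, map_natCast, map_ofNat]
  have h2 := (maximalIdeal 𝒪'' ^ (e * M)).neg_mem h1
  rwa [neg_sub] at h2


variable {p : ℕ} {N : ℕ} [NeZero N] {S : Finset ℕ}
  {𝒪 : Type} [CommRing 𝒪] [IsDomain 𝒪] [IsDiscreteValuationRing 𝒪]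
  [IsAdicComplete (IsLocalRing.maximalIdeal 𝒪) 𝒪]
  {θ : CuspForm.heckeAlgebra N 2 (↑S : Set ℕ) →+* IsLocalRing.ResidueField 𝒪}
  {T : Type} [CommRing T] [IsLocalRing T] [IsNoetherianRing T]
  [IsAdicComplete (IsLocalRing.maximalIdeal T) T] [Algebra 𝒪 T] [IsLocalHom (algebraMap 𝒪 T)]
  [Module.Finite 𝒪 T] [Module.Free 𝒪 T]

/-- the trace of `ρ(σ)` is `2` for `σ` in an inertia group at a prime `q ≠ p` dividing the level
exactly once -/
theorem t2z_trace_eq_two (h30 : T2zS30U)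
    (hred : IsReduced (CuspForm.heckeAlgebra N 2 (↑S : Set ℕ))) (hp : p.Prime)
    (hp𝒪 : (p : 𝒪) ∈ IsLocalRing.maximalIdeal 𝒪) (hpS : p ∈ S)
    (hNS : ∀ q : ℕ, q.Prime → q ∣ N → q ∈ S)
    (H : CuspForm.HeckeGaloisRepDatum N (↑S : Set ℕ) 𝒪 θ T)
    (q : ℕ) (hq : q.Prime) (hqp : q ≠ p) (hqN : q ∣ N) (hq2 : ¬ q ^ 2 ∣ N)
    (P : ValuationSubring Qbar) (hP : P.LiesOverPrime q) (σ : GQ)
    (hσ : σ ∈ P.inertiaSubgroupIn ℚ) :
    LinearMap.trace T H.ρ.V (H.ρ.ρ σ) = 2 := by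
  classical
  haveI : Fact p.Prime := ⟨hp⟩
  haveI := Fermat.Agent.Lib.Helper6.isGalois_rat_algebraicClosure
  haveI : Module.Finite ℤ (heckeAlgebra N 2 (↑S : Set ℕ)) :=
    Fermat.Agent.S22Lib.moduleFinite_heckeAlgebra N 2 _
  haveI : Module.Free ℤ (heckeAlgebra N 2 (↑S : Set ℕ)) :=
    Module.free_of_finite_type_torsion_free'
  -- the congruence constant
  obtain ⟨c, hc⟩ := s31t_congruence (𝕋 := heckeAlgebra N 2 (↑S : Set ℕ)) p hp (s31tInt p)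
    (s31tInt_of_isIntegral p) (s31tInt_dvd p)
  haveI : Finite (heckeAlgebra N 2 (↑S : Set ℕ) →+* S31tOmega p) := s31t_finite_ringHom
  have hpT : (p : T) ∈ maximalIdeal T := by
    have := map_nonunit (algebraMap 𝒪 T) _ hp𝒪
    rwa [map_natCast] at this
  have hkrull : ⨅ i, maximalIdeal T ^ i = ⊥ :=
    Ideal.iInf_pow_eq_bot_of_isLocalRing _ (Ideal.IsMaximal.ne_top inferInstance)
  rw [← sub_eq_zero, ← Ideal.mem_bot, ← hkrull, Ideal.mem_iInf]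
  intro n
  -- the levels
  obtain ⟨LT, hLTfin, hLT⟩ := H.ρ.isAdicContinuous n
  choose Lψ hLψfin hLψ using fun ψ : heckeAlgebra N 2 (↑S : Set ℕ) →+* S31tOmega p =>
    t2z_point_congr h30 p N S hpS hNS ψ q hq hqp hqN hq2 (n + c)
  haveI := hLTfin
  haveI := hLψfin
  let L₀ : IntermediateField ℚ Qbar := LT ⊔ ⨆ ψ, Lψ ψ
  haveI : FiniteDimensional ℚ L₀ := IntermediateField.finiteDimensional_sup _ _
  set L := IntermediateField.normalClosure ℚ L₀ Qbar with hL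
  haveI : FiniteDimensional ℚ L := normalClosure.is_finiteDimensional ℚ L₀ Qbar
  haveI : Normal ℚ L := normalClosure.normal ℚ L₀ Qbar
  have hL₀L : L₀ ≤ L := IntermediateField.le_normalClosure L₀
  have hLTL : LT ≤ L := le_trans le_sup_left hL₀L
  have hLψL : ∀ ψ, Lψ ψ ≤ L := fun ψ =>
    le_trans (le_trans (le_iSup Lψ ψ) le_sup_right) hL₀L
  -- a Frobenius power
  obtain ⟨l, hl, hlS, P₁, φ₁, hP₁, hφ₁, b₁, hb₁⟩ := s31t_exists_frobenius_pow L σ S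
  have hlN : ¬ l ∣ N := fun h => hlS (hNS l hl h)
  have hlS' : l ∉ (↑S : Set ℕ) := hlS
  set t : heckeAlgebra N 2 (↑S : Set ℕ) :=
    s31tPow (heckeAlgebra.T hl hlN hlS') (l : heckeAlgebra N 2 (↑S : Set ℕ)) b₁ - 2 with ht
  -- all points kill `t` modulo `p ^ (n + c)`
  have hpts : ∀ ψ : heckeAlgebra N 2 (↑S : Set ℕ) →+* S31tOmega p,
      ∃ a ∈ s31tInt p, ψ t = (p : S31tOmega p) ^ (n + c) * a := by
    intro ψ
    exact hLψ ψ P hP σ hσ l hl hlN hlS' P₁ φ₁ b₁ hP₁ hφ₁ (fun x hx => hb₁ x (hLψL ψ hx))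
  obtain ⟨t', ht'⟩ := hc n t hpts
  have hπt : H.π t ∈ maximalIdeal T ^ n := by
    rw [ht', map_mul, map_pow, map_natCast]
    exact Ideal.mul_mem_right _ _ (Ideal.pow_mem_pow hpT n)
  -- the trace congruence over `T`
  have hLT' : ∀ τ : GQ, (∀ x ∈ L, τ x = x) →
      ∀ v : H.ρ.V, H.ρ.ρ τ v - v ∈ (maximalIdeal T ^ n) • (⊤ : Submodule T H.ρ.V) :=
    fun τ hτ => hLT τ fun x hx => hτ x (hLTL hx)
  have h1 := s31t_trace_congr H.ρ n L hLT' σ φ₁ b₁ hb₁ _ _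
    (H.charpoly_frob l hl hlN hlS' P₁ hP₁ φ₁ hφ₁)
  have hπ : H.π t = s31tPow (H.π (heckeAlgebra.T hl hlN hlS')) (l : T) b₁ - 2 := by
    rw [ht, map_sub, map_s31tPow, map_natCast, map_ofNat]
  have h3 := (maximalIdeal T ^ n).add_mem h1 hπt
  rw [hπ] at h3
  have h4 : LinearMap.trace T H.ρ.V (H.ρ.ρ σ) - 2
      = (LinearMap.trace T H.ρ.V (H.ρ.ρ σ)
            - s31tPow (H.π (heckeAlgebra.T hl hlN hlS')) (l : T) b₁)
        + (s31tPow (H.π (heckeAlgebra.T hl hlN hlS')) (l : T) b₁ - 2) := by ring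
  rw [h4]
  exact h3

/-- **S30 with unipotent inertia and the reducedness of the Hecke algebra imply S34** -/
theorem s34_of_s30u [CharZero 𝒪] (h30 : T2zS30U)
    (hred : IsReduced (CuspForm.heckeAlgebra N 2 (↑S : Set ℕ))) (hp : p.Prime)
    (hp𝒪 : (p : 𝒪) ∈ IsLocalRing.maximalIdeal 𝒪) (hpS : p ∈ S)
    (hNS : ∀ q : ℕ, q.Prime → q ∣ N → q ∈ S)
    (H : CuspForm.HeckeGaloisRepDatum N (↑S : Set ℕ) 𝒪 θ T)
    (q : ℕ) (hq : q.Prime) (hqp : q ≠ p) (hqN : q ∣ N) (hq2 : ¬ q ^ 2 ∣ N) :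
    H.ρ.IsUnipotentOnInertiaAt q := by
  classical
  intro P hP σ hσ
  have h1 := t2z_trace_eq_two h30 hred hp hp𝒪 hpS hNS H q hq hqp hqN hq2 P hP σ hσ
  have h2 := t2z_trace_eq_two h30 hred hp hp𝒪 hpS hNS H q hq hqp hqN hq2 P hP (σ * σ)
    (mul_mem hσ hσ)
  let b : Module.Basis (Fin 2) T H.ρ.V := Module.finBasisOfFinrankEq T H.ρ.V H.ρ.finrank_eq
  set Mx := LinearMap.toMatrix b b (H.ρ.ρ σ) with hMx
  have htr : Mx.trace = 2 := by
    rw [hMx, ← LinearMap.trace_eq_matrix_trace T b]; exact h1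
  have hsq : LinearMap.toMatrix b b (H.ρ.ρ (σ * σ)) = Mx ^ 2 := by
    rw [map_mul, pow_two]
    exact LinearMap.toMatrix_mul b _ _
  have htr2 : (Mx ^ 2).trace = 2 := by
    rw [← hsq, ← LinearMap.trace_eq_matrix_trace T b]; exact h2
  have hrec := Fermat.Agent.T1.ter_trace_pow_succ_succ Mx 0
  rw [zero_add, zero_add, pow_one, pow_zero, htr2, htr, Matrix.trace_one] at hrec
  have hdet2 : (2 : T) * (Mx.det - 1) = 0 := by
    have : (Fintype.card (Fin 2) : T) = 2 := by simp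
    rw [this] at hrec
    linear_combination hrec
  have hdet : Mx.det = 1 := by
    have h2T : (2 : T) = algebraMap 𝒪 T 2 := (map_ofNat _ 2).symm
    rw [h2T, ← Algebra.smul_def] at hdet2
    have h20 : (2 : 𝒪) ≠ 0 := two_ne_zero
    have := (smul_eq_zero.mp hdet2).resolve_left h20
    exact sub_eq_zero.mp this
  rw [← LinearMap.charpoly_toMatrix (H.ρ.ρ σ) b, Matrix.charpoly_fin_two, ← hMx, htr, hdet,
    map_ofNat, map_one]
  ring

end Fermat.Agent.T2
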