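/-
T2-E (helper4), file 2: **S30 with unipotent inertia from the Tate module package with (H3')**.

`t2z_charpoly_of_sq_zero`: `(f - 1)² = 0` on a free module of rank two over a domain ⟹
`charpoly f = (X - 1)²`.  `t2zRep_isUnipotentOnInertiaAt`: (H3') ⟹ the eigen-lattice representation
`teRep` has unipotent inertia.  `T2zPackage p N` := `TePackage p N` + (H3').
`t2z_S30U_of_package`, `t2z_S30U : (∀ p N, T2zPackage p N) → T2zS30U`.
-/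
import Fermat.Agent.Lib.T1.Asm.S30Skeleton
import Fermat.Agent.Lib.T1.Asm.Res.Extension
import Fermat.Agent.Lib.T2.Asm.S34Trace
import Fermat.Prelude.Def_GaloisRep_LocalConditions
set_option autoImplicit false
set_option linter.unusedSectionVars false
set_option linter.unusedVariables false
set_option linter.style.haveILetI false

open scoped TensorProduct
open IsLocalRing Polynomial Fermat.Agent.CFT Fermat.Agent.T1 Fermat.Agent.S31T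

namespace Fermat.Agent.T2

noncomputable section

/-- an endomorphism `f` of a free module of rank two over a domain with `(f - 1)² = 0` has
characteristic polynomial `(X - 1)²` -/
theorem t2z_charpoly_of_sq_zero {R V : Type*} [CommRing R] [IsDomain R] [AddCommGroup V]
    [Module R V] [Module.Free R V] [Module.Finite R V] (hV : Module.finrank R V = 2)
    (f : Module.End R V) (h : (f - 1) * (f - 1) = 0) :
    LinearMap.charpoly f = (X - 1) ^ 2 := by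
  classical
  let b : Module.Basis (Fin 2) R V := Module.finBasisOfFinrankEq R V hV
  have hnil : IsNilpotent (f - 1) := ⟨2, by rw [pow_two]; exact h⟩
  have hcp : LinearMap.charpoly (f - 1) = X ^ 2 - C (0 : R) * X + C (0 : R) := by
    rw [IsNilpotent.charpoly_eq_X_pow_finrank hnil, hV, map_zero, zero_mul, sub_zero, add_zero]
  obtain ⟨ht, hd⟩ := s31t_trace_det_of_charpoly b (f - 1) 0 0 hcp
  set A := LinearMap.toMatrix b b (f - 1) with hA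
  have hM : LinearMap.toMatrix b b f = A + 1 := by
    rw [hA, map_sub, LinearMap.toMatrix_one, sub_add_cancel]
  have htr : (LinearMap.toMatrix b b f).trace = 2 := by
    rw [hM, Matrix.trace_add, ht, Matrix.trace_one]
    simp
  have hdet : (LinearMap.toMatrix b b f).det = 1 := by
    rw [hM, Matrix.det_fin_two]
    rw [Matrix.det_fin_two] at hd
    rw [Matrix.trace_fin_two] at ht
    simp only [Matrix.add_apply, Matrix.one_apply_eq, Matrix.one_apply_ne, ne_eq, Fin.isValue,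
      zero_ne_one, one_ne_zero, not_false_eq_true, add_zero]
    linear_combination hd + ht
  rw [← LinearMap.charpoly_toMatrix f b, Matrix.charpoly_fin_two, htr, hdet, map_ofNat, map_one]
  ring

section Rep

variable {p : ℕ} [Fact p.Prime] {T : Type} [AddCommGroup T] [Module ℤ_[p] T]
  [Module.Free ℤ_[p] T] [Module.Finite ℤ_[p] T]
  (gal : GQ →* Module.End ℤ_[p] T)
  {𝕋 : Type} [CommRing 𝕋] (hecke : 𝕋 →+* Module.End ℤ_[p] T)
  (hcomm : ∀ σ t, gal σ * hecke t = hecke t * gal σ)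
  (hcont : ∀ n : ℕ, ∃ L : IntermediateField ℚ Qbar, FiniteDimensional ℚ L ∧
    ∀ σ : GQ, (∀ x ∈ L, σ x = x) → ∀ v : T, ∃ w : T, gal σ v - v = (p : ℤ_[p]) ^ n • w)
  {𝒪 : Type} [CommRing 𝒪] [IsDomain 𝒪] [IsDiscreteValuationRing 𝒪] [Algebra ℤ_[p] 𝒪]
  (hp𝒪 : (p : 𝒪) ∈ maximalIdeal 𝒪) (hp0 : (p : 𝒪) ≠ 0)
  (lam : 𝕋 →+* 𝒪) (h2 : Module.finrank 𝒪 ↥(teEigen hecke lam) = 2)

/-- (H3') ⟹ unipotent inertia -/
theorem t2zRep_isUnipotentOnInertiaAt (q : ℕ)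
    (h : ∀ P : ValuationSubring Qbar, P.LiesOverPrime q →
      ∀ σ ∈ P.inertiaSubgroupIn ℚ, (gal σ - 1) * (gal σ - 1) = 0) :
    (teRep gal hecke hcomm hcont hp𝒪 hp0 lam h2).IsUnipotentOnInertiaAt q := by
  intro P hP σ hσ
  apply t2z_charpoly_of_sq_zero (teRep gal hecke hcomm hcont hp𝒪 hp0 lam h2).finrank_eq
  apply LinearMap.ext
  intro x
  apply Subtype.ext
  have h1 := congrArg (fun g => (g.baseChange 𝒪) (x : teEigen hecke lam).1) (h P hP σ hσ)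
  simp only [LinearMap.baseChange_mul, LinearMap.baseChange_sub, LinearMap.baseChange_one,
    LinearMap.baseChange_zero, Module.End.mul_apply, LinearMap.sub_apply, Module.End.one_apply,
    LinearMap.zero_apply] at h1
  exact h1

end Rep


/-- **abstract assembly of S30 with unipotent inertia**: `te_galoisRep_of_package` with the
additional hypothesis (H3') `(gal σ - 1)² = 0` for `σ` in the inertia groups at the primes `q ≠ p`
with `q ∥ N`, and the additional conclusion that `ρ` has unipotent inertia there -/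
theorem t2z_galoisRep_of_package (p : ℕ) [Fact p.Prime] (N : ℕ) (S : Finset ℕ) (hpS : p ∈ S)
    (hNS : ∀ q : ℕ, q.Prime → q ∣ N → q ∈ S)
    {T : Type} [AddCommGroup T] [Module ℤ_[p] T] [Module.Free ℤ_[p] T] [Module.Finite ℤ_[p] T]
    (gal : GQ →* Module.End ℤ_[p] T)
    {𝕋 : Type} [CommRing 𝕋] (hecke : 𝕋 →+* Module.End ℤ_[p] T)
    (hcomm : ∀ σ t, gal σ * hecke t = hecke t * gal σ)
    (hcont : ∀ n : ℕ, ∃ L : IntermediateField ℚ Qbar, FiniteDimensional ℚ L ∧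
      ∀ σ : GQ, (∀ x ∈ L, σ x = x) → ∀ v : T, ∃ w : T, gal σ v - v = (p : ℤ_[p]) ^ n • w)
    (Tl : ℕ → 𝕋)
    (hunr : ∀ q : ℕ, q.Prime → ¬ q ∣ N → q ≠ p → ∀ P : ValuationSubring Qbar,
      P.LiesOverPrime q → ∀ σ ∈ P.inertiaSubgroupIn ℚ, gal σ = 1)
    (hES : ∀ l : ℕ, l.Prime → ¬ l ∣ N → l ≠ p → ∀ A : ValuationSubring Qbar,
      A.LiesOverPrime l → ∀ σ : GQ, A.IsFrobeniusAt σ l →
        gal σ * gal σ - hecke (Tl l) * gal σ + (l : ℤ_[p]) • (1 : Module.End ℤ_[p] T) = 0)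
    (huni : ∀ q : ℕ, q.Prime → q ≠ p → q ∣ N → ¬ q ^ 2 ∣ N → ∀ P : ValuationSubring Qbar,
      P.LiesOverPrime q → ∀ σ ∈ P.inertiaSubgroupIn ℚ, (gal σ - 1) * (gal σ - 1) = 0)
    {𝒪 : Type} [CommRing 𝒪] [IsDomain 𝒪] [IsDiscreteValuationRing 𝒪] [CharZero 𝒪]
    [Algebra ℤ_[p] 𝒪] (hp𝒪 : (p : 𝒪) ∈ maximalIdeal 𝒪) (lam : 𝕋 →+* 𝒪)
    (h2 : Module.finrank 𝒪 ↥(teEigen hecke lam) = 2)
    (hc : ∃ c : GQ, ∃ v ∈ teEigen hecke lam, ∀ z : 𝒪, (gal c).baseChange 𝒪 v ≠ z • v) :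
    ∃ ρ : GaloisRepAdic 𝒪,
      (∀ l : ℕ, l.Prime → ¬ l ∣ N → l ∉ S → ∀ A : ValuationSubring Qbar, A.LiesOverPrime l →
        ∀ σ : GQ, A.IsFrobeniusAt σ l →
          LinearMap.charpoly (ρ.ρ σ) = X ^ 2 - C (lam (Tl l)) * X + C (l : 𝒪)) ∧
      (∀ q : ℕ, q.Prime → ¬ q ∣ N → q ≠ p → ρ.IsUnramifiedAt q) ∧
      (∀ q : ℕ, q.Prime → q ≠ p → q ∣ N → ¬ q ^ 2 ∣ N → ρ.IsUnipotentOnInertiaAt q) ∧
      ρ.DetIsCyclotomic p := by
  have hp : p.Prime := Fact.out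
  have hp0 : (p : 𝒪) ≠ 0 := Nat.cast_ne_zero.2 hp.ne_zero
  set ρ := teRep gal hecke hcomm hcont hp𝒪 hp0 lam h2 with hρ
  have hlN : ∀ l : ℕ, l.Prime → l ∉ S → ¬ l ∣ N ∧ l ≠ p := fun l hl hlS =>
    ⟨fun h => hlS (hNS l hl h), fun h => hlS (h ▸ hpS)⟩
  have hq : ∀ l : ℕ, l.Prime → l ∉ S → ∀ A : ValuationSubring Qbar, A.LiesOverPrime l →
      ∀ φ : GQ, A.IsFrobeniusAt φ l →
        ρ.ρ φ * ρ.ρ φ - lam (Tl l) • ρ.ρ φ + (l : 𝒪) • (1 : Module.End 𝒪 ρ.V) = 0 :=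
    fun l hl hlS A hA φ hφ =>
      teRep_quadratic gal hecke hcomm hcont hp𝒪 hp0 lam h2 φ (Tl l) l
        (hES l hl (hlN l hl hlS).1 (hlN l hl hlS).2 A hA φ hφ)
  obtain ⟨c, hcv⟩ := hc
  obtain ⟨hcyc, hchar⟩ := te_charpoly_of_quadratic p ρ S hp𝒪 hpS
    (fun l hl hlS A hA φ hφ => ⟨lam (Tl l), hq l hl hlS A hA φ hφ⟩)
    ⟨c, teRep_not_scalar gal hecke hcomm hcont hp𝒪 hp0 lam h2 c hcv⟩
  refine ⟨ρ, fun l hl _ hlS A hA σ hσ => ?_, fun q hq hqN hqp => ?_,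
    fun q hq hqp hqN hq2 => ?_, hcyc⟩
  · exact hchar l hl hlS A hA σ hσ (lam (Tl l)) (hq l hl hlS A hA σ hσ)
  · exact teRep_isUnramifiedAt gal hecke hcomm hcont hp𝒪 hp0 lam h2 q (hunr q hq hqN hqp)
  · exact t2zRep_isUnipotentOnInertiaAt gal hecke hcomm hcont hp𝒪 hp0 lam h2 q
      (huni q hq hqp hqN hq2)

/-- the Tate module package of `J₀(N)` with the additional property (H3'): `(σ - 1)² = 0` for `σ` in
the inertia groups at the primes `q ≠ p` with `q ∥ N` -/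
def T2zPackage (p : ℕ) [Fact p.Prime] (N : ℕ) [NeZero N] : Prop :=
  ∃ (T : Type) (_ : AddCommGroup T) (_ : Module ℤ_[p] T) (_ : Module.Free ℤ_[p] T)
    (_ : Module.Finite ℤ_[p] T) (gal : GQ →* Module.End ℤ_[p] T)
    (hecke : CuspForm.heckeAlgebra N 2 (∅ : Set ℕ) →+* Module.End ℤ_[p] T),
    (∀ σ t, gal σ * hecke t = hecke t * gal σ) ∧
    (∀ n : ℕ, ∃ L : IntermediateField ℚ Qbar, FiniteDimensional ℚ L ∧
      ∀ σ : GQ, (∀ x ∈ L, σ x = x) → ∀ v : T, ∃ w : T, gal σ v - v = (p : ℤ_[p]) ^ n • w) ∧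
    (∀ q : ℕ, q.Prime → ¬ q ∣ N → q ≠ p → ∀ P : ValuationSubring Qbar,
      P.LiesOverPrime q → ∀ σ ∈ P.inertiaSubgroupIn ℚ, gal σ = 1) ∧
    (∀ (l : ℕ) (hl : l.Prime) (hlN : ¬ l ∣ N), l ≠ p → ∀ A : ValuationSubring Qbar,
      A.LiesOverPrime l → ∀ σ : GQ, A.IsFrobeniusAt σ l →
        gal σ * gal σ - hecke (CuspForm.heckeAlgebra.T hl hlN (Set.notMem_empty l)) * gal σ +
          (l : ℤ_[p]) • (1 : Module.End ℤ_[p] T) = 0) ∧
    (∀ q : ℕ, q.Prime → q ≠ p → q ∣ N → ¬ q ^ 2 ∣ N → ∀ P : ValuationSubring Qbar,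
      P.LiesOverPrime q → ∀ σ ∈ P.inertiaSubgroupIn ℚ, (gal σ - 1) * (gal σ - 1) = 0) ∧
    (∀ (𝒪 : Type) [CommRing 𝒪] [IsDomain 𝒪] [IsDiscreteValuationRing 𝒪] [CharZero 𝒪]
      [Algebra ℤ_[p] 𝒪] (lam : CuspForm.heckeAlgebra N 2 (∅ : Set ℕ) →+* 𝒪),
      Module.finrank 𝒪 ↥(teEigen hecke lam) = 2 ∧
      ∃ c : GQ, ∃ v ∈ teEigen hecke lam, ∀ z : 𝒪, (gal c).baseChange 𝒪 v ≠ z • v)

/-- **S30 with unipotent inertia from the package and the extension property** -/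
theorem t2z_S30U_of_package (p : ℕ) [Fact p.Prime] (N : ℕ) [NeZero N] (S : Finset ℕ)
    (hpS : p ∈ S) (hNS : ∀ q : ℕ, q.Prime → q ∣ N → q ∈ S)
    (hpkg : T2zPackage p N) (hext : TeExtension p N (↑S : Set ℕ))
    (𝒪' : Type) [CommRing 𝒪'] [IsDomain 𝒪'] [IsDiscreteValuationRing 𝒪']
    [IsAdicComplete (maximalIdeal 𝒪') 𝒪'] [Finite (ResidueField 𝒪')]
    [CharZero 𝒪'] (hp𝒪' : (p : 𝒪') ∈ maximalIdeal 𝒪')
    (χ : CuspForm.heckeAlgebra N 2 (↑S : Set ℕ) →+* 𝒪') :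
    ∃ (𝒪'' : Type) (_ : CommRing 𝒪'') (_ : IsDomain 𝒪'') (_ : IsDiscreteValuationRing 𝒪'')
      (_ : IsAdicComplete (maximalIdeal 𝒪'') 𝒪'')
      (_ : Finite (ResidueField 𝒪'')) (_ : CharZero 𝒪'')
      (_ : Algebra 𝒪' 𝒪'') (_ : Module.Finite 𝒪' 𝒪'') (_ : IsLocalHom (algebraMap 𝒪' 𝒪'')),
    Function.Injective (algebraMap 𝒪' 𝒪'') ∧
    ∃ ρ : GaloisRepAdic 𝒪'',
      (∀ (ℓ : ℕ) (hℓ : ℓ.Prime) (hℓN : ¬ ℓ ∣ N) (hℓS : ℓ ∉ (↑S : Set ℕ)),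
        ∀ A : ValuationSubring (AlgebraicClosure ℚ), A.LiesOverPrime ℓ →
          ∀ σ : AlgebraicClosure ℚ ≃ₐ[ℚ] AlgebraicClosure ℚ, A.IsFrobeniusAt σ ℓ →
            LinearMap.charpoly (ρ.ρ σ) =
              X ^ 2 - C (algebraMap 𝒪' 𝒪'' (χ (CuspForm.heckeAlgebra.T hℓ hℓN hℓS))) * X
                + C ((ℓ : 𝒪''))) ∧
      (∀ q : ℕ, q.Prime → ¬ q ∣ N → q ≠ p → ρ.IsUnramifiedAt q) ∧
      (∀ q : ℕ, q.Prime → q ≠ p → q ∣ N → ¬ q ^ 2 ∣ N → ρ.IsUnipotentOnInertiaAt q) := by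
  classical
  obtain ⟨𝒪'', i1, i2, i3, i4, i5, i6, i7, i8, i9, hinj, lam, hlam⟩ := hext 𝒪' hp𝒪' χ
  refine ⟨𝒪'', i1, i2, i3, i4, i5, i6, i7, i8, i9, hinj, ?_⟩
  have hp'' : (p : 𝒪'') ∈ maximalIdeal 𝒪'' := by
    rw [mem_maximalIdeal, mem_nonunits_iff] at hp𝒪' ⊢
    intro hu
    apply hp𝒪'
    have : (p : 𝒪'') = algebraMap 𝒪' 𝒪'' (p : 𝒪') := (map_natCast _ p).symm
    rw [this] at hu
    exact isUnit_of_map_unit (algebraMap 𝒪' 𝒪'') _ hu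
  letI : Algebra ℤ_[p] 𝒪'' := tePadicAlgebra p 𝒪'' hp''
  obtain ⟨T, j1, j2, j3, j4, gal, hecke, hcomm, hcont, hunr, hES, huni, h56⟩ := hpkg
  obtain ⟨h2, hc⟩ := h56 𝒪'' lam
  set Tl : ℕ → CuspForm.heckeAlgebra N 2 (∅ : Set ℕ) := fun l =>
    if h : l.Prime ∧ ¬ l ∣ N then CuspForm.heckeAlgebra.T h.1 h.2 (Set.notMem_empty l) else 0
    with hTl
  have hTl' : ∀ (l : ℕ) (hl : l.Prime) (hlN : ¬ l ∣ N),
      Tl l = CuspForm.heckeAlgebra.T hl hlN (Set.notMem_empty l) := by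
    intro l hl hlN
    rw [hTl]
    simp only
    rw [dif_pos ⟨hl, hlN⟩]
  obtain ⟨ρ, hρ1, hρ2, hρ3, -⟩ := t2z_galoisRep_of_package p N S hpS hNS gal hecke hcomm hcont Tl
    hunr
    (fun l hl hlN hlp A hA σ hσ => by rw [hTl' l hl hlN]; exact hES l hl hlN hlp A hA σ hσ)
    huni hp'' lam h2 hc
  refine ⟨ρ, fun ℓ hℓ hℓN hℓS A hA σ hσ => ?_, hρ2, hρ3⟩
  rw [hρ1 ℓ hℓ hℓN hℓS A hA σ hσ, hTl' ℓ hℓ hℓN, ← hlam]
  rfl

/-- **S30 with unipotent inertia from the packages** -/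
theorem t2z_S30U (hpkg : ∀ (p : ℕ) [Fact p.Prime] (N : ℕ) [NeZero N], T2zPackage p N) : T2zS30U :=
  fun p _ N _ S hpS hNS 𝒪' _ _ _ _ _ _ hp𝒪' χ =>
    t2z_S30U_of_package p N S hpS hNS (hpkg p N) (ter_extension p N (↑S : Set ℕ)) 𝒪' hp𝒪' χ

end

end Fermat.Agent.T2
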