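/-
T2-E (helper4), file 3: **the Tate module package with (H3')** `T2zPackage p N` from the dictionary,
(K3) and the output of T2-G (`(σ - 1)² = 0` on the Kummer groups `tWsub ℚ̄ N (p^k)` modulo `p^k`-th
powers, for `σ` in the inertia groups at the primes `q ≠ p`, `q ∥ N`).
`t2z_package` is a copy of `tdm_package` (Lib/T1/Mono/Package.lean) with the additional input and
output; `t2z_package_of_dict` the corresponding copy of `tdm_package_of_dict`.
-/
import Mathlib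
import Fermat.Agent.Lib.T1.Mono.Final
import Fermat.Agent.Lib.T2.Asm.S30U

set_option autoImplicit false
set_option linter.unusedSectionVars false
set_option linter.style.haveILetI false

namespace Fermat.Agent.T1

open Complex Set Filter Topology Matrix MatrixGroups CongruenceSubgroup ModularCurve
open UpperHalfPlane hiding I
open Fermat.Agent.S24Lib ModularCurve.Period Fermat.Agent.T2
open scoped TensorProduct

local notation "Kbar" => AlgebraicClosure ℚ
local notation "GQ" => (AlgebraicClosure ℚ ≃ₐ[ℚ] AlgebraicClosure ℚ)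

section Gal

variable {N : ℕ} [NeZero N] {DK : TdmDict Kbar N} {DC : TdmDictC N} (E : TdmDescent N DK DC)

include E in
/-- **(H3') at finite level**: if `σ²y · y ≡ (σ y)²` modulo `m`-th powers on the Kummer group, then
`(σ - 1)² = 0` on `X_m` -/
theorem TdmDescent.t2z_galX_unip {m : ℕ} (hm : m ≠ 0) (σ : GQ)
    (h : ∀ y : (↥(modularFunctionFieldBar N))ˣ, y ∈ tWsub Kbar N m →
      ∃ t : (↥(modularFunctionFieldBar N))ˣ,
        tkrSig N σ (tkrSig N σ y) * y = tkrSig N σ y ^ 2 * t ^ m)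
    (χ : tdmX N m) : E.galX hm σ (E.galX hm σ χ) * χ = E.galX hm σ χ ^ 2 := by
  obtain ⟨y, rfl⟩ := E.psi_surjective hm χ
  rw [E.galX_psi, E.galX_psi, ← map_pow, ← map_mul]
  obtain ⟨t, ht⟩ := h y.1 y.2
  have h1 : tdmSigW N m σ (tdmSigW N m σ y) * y
      = tdmSigW N m σ y ^ 2 * ⟨t ^ m, tkr_pow_mem_tWsub N m t⟩ := Subtype.ext ht
  rw [h1, map_mul, DK.psi_pow hm ⟨t ^ m, tkr_pow_mem_tWsub N m t⟩ t rfl, mul_one]

end Gal

noncomputable section

section Package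

variable (p : ℕ) [hp : Fact p.Prime] (N : ℕ) [NeZero N]

local notation "𝕋" => CuspForm.heckeAlgebra N 2 (∅ : Set ℕ)
set_option quotPrecheck false in
local notation "TT" => ↥(parabolicHoms ℤ_[p] (Gamma0 N) ℤ_[p])

/-- **the Tate module package with (H3')**: copy of `tdm_package` with the additional input `hU`
(T2-G: `(σ - 1)² = 0` on the Kummer groups for `σ` in the inertia groups at `q ∥ N`) -/
theorem t2z_package (DK : TdmDict Kbar N) (hDK : DK.toMer = KMod.toMer Kbar N) (DC : TdmDictC N)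
    (E : TdmDescent N DK DC)
    (hconj : ∀ y : ↥(modularFunctionFieldBar N),
      DK.fn (arithmeticRingAut (modularFunctionFieldFull N) complexConjugation y)
        = tdmConj (DK.fn y))
    (hfix : ∀ y : ↥(modularFunctionFieldBar N), ∃ L : IntermediateField ℚ Kbar,
      FiniteDimensional ℚ L ∧ ∀ σ : GQ, (∀ x ∈ L, σ x = x) →
        arithmeticRingAut (modularFunctionFieldFull N) σ y = y)
    (hK3 : ∀ q : ℕ, q.Prime → ¬ q ∣ N → q ≠ p → ∀ A : ValuationSubring Kbar,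
      A.LiesOverPrime q → ∀ k : ℕ, TkrK12 N (p ^ k) A ∧ TkrNormal N A)
    (hU : ∀ q : ℕ, q.Prime → q ≠ p → q ∣ N → ¬ q ^ 2 ∣ N → ∀ A : ValuationSubring Kbar,
      A.LiesOverPrime q → ∀ σ ∈ A.inertiaSubgroupIn ℚ, ∀ k : ℕ,
      ∀ y : (↥(modularFunctionFieldBar N))ˣ, y ∈ tWsub Kbar N (p ^ k) →
        ∃ t : (↥(modularFunctionFieldBar N))ˣ,
          tkrSig N σ (tkrSig N σ y) * y = tkrSig N σ y ^ 2 * t ^ (p ^ k))
    (hecke : 𝕋 →+* Module.End ℤ_[p] TT)
    (hheckeT : ∀ (l : ℕ) (hl : l.Prime) (hlN : ¬ l ∣ N) (φ : TT),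
      ((hecke (CuspForm.heckeAlgebra.T hl hlN (Set.notMem_empty l)) φ : TT) :
        Additive (Gamma0 N) →+ ℤ_[p])
        = (tdmSysT N l hl hlN).hom ℤ_[p] (φ : Additive (Gamma0 N) →+ ℤ_[p]))
    (hheckeU : ∀ (q : ℕ) (hq : q.Prime) (hqN : q ∣ N) (φ : TT),
      ((hecke (CuspForm.heckeAlgebra.U hq hqN (Set.notMem_empty q)) φ : TT) :
        Additive (Gamma0 N) →+ ℤ_[p])
        = (tdmSysU N q hqN hq.ne_zero).hom ℤ_[p] (φ : Additive (Gamma0 N) →+ ℤ_[p]))
    (h5 : ∀ (𝒪 : Type) [CommRing 𝒪] [IsDomain 𝒪] [IsDiscreteValuationRing 𝒪] [CharZero 𝒪]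
      [Algebra ℤ_[p] 𝒪] (lam : 𝕋 →+* 𝒪), Module.finrank 𝒪 ↥(teEigen hecke lam) = 2)
    (h6 : ∀ w : Module.End ℤ_[p] TT,
      (∀ φ : TT, ((w φ : TT) : Additive (Gamma0 N) →+ ℤ_[p])
        = -(charInvolution N ℤ_[p] ℤ_[p] (φ : Additive (Gamma0 N) →+ ℤ_[p]))) →
      ∀ (𝒪 : Type) [CommRing 𝒪] [IsDomain 𝒪] [IsDiscreteValuationRing 𝒪] [CharZero 𝒪]
        [Algebra ℤ_[p] 𝒪] (lam : 𝕋 →+* 𝒪),
        ∃ v ∈ teEigen hecke lam, ∀ z : 𝒪, w.baseChange 𝒪 v ≠ z • v) :
    T2zPackage p N := by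
  classical
  set D := tdmTowerN p N with hD
  set gal : GQ →* Module.End ℤ_[p] TT := D.action (E.galW p) (E.galW_compat p) with hgal
  have hιgal : ∀ (σ : GQ) (x : TT) (k : ℕ), D.ι k (gal σ x) = E.galW p k σ (D.ι k x) :=
    fun σ x k => D.ι_action (E.galW p) (E.galW_compat p) σ x k
  -- Hecke operators at finite level
  have hιT : ∀ (l : ℕ) (hl : l.Prime) (hlN : ¬ l ∣ N) (k : ℕ) (x : TT),
      D.ι k (hecke (CuspForm.heckeAlgebra.T hl hlN (Set.notMem_empty l)) x)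
        = MonoidHom.toAdditive ((tdmSysT N l hl hlN).homX (p ^ k)) (D.ι k x) :=
    fun l hl hlN k x => tdm_ι_hom p (tdmSysT N l hl hlN) k x _ (hheckeT l hl hlN x)
  have hιU : ∀ (q : ℕ) (hq : q.Prime) (hqN : q ∣ N) (k : ℕ) (x : TT),
      D.ι k (hecke (CuspForm.heckeAlgebra.U hq hqN (Set.notMem_empty q)) x)
        = MonoidHom.toAdditive ((tdmSysU N q hqN hq.ne_zero).homX (p ^ k)) (D.ι k x) :=
    fun q hq hqN k x => tdm_ι_hom p (tdmSysU N q hqN hq.ne_zero) k x _ (hheckeU q hq hqN x)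
  -- (H1)
  have hcomm : ∀ (σ : GQ) (t : 𝕋), gal σ * hecke t = hecke t * gal σ := by
    intro σ t
    obtain ⟨t, ht⟩ := t
    induction ht using Algebra.adjoin_induction with
    | mem x hx =>
      rcases hx with ⟨l, hl, hlN, -, rfl⟩ | ⟨q, hqN, hq, -, rfl⟩
      · apply D.end_ext
        intro k x
        have e1 : (⟨CuspForm.heckeTLin 2 hl hlN, Algebra.subset_adjoin
            (Or.inl ⟨l, hl, hlN, Set.notMem_empty l, rfl⟩)⟩ : 𝕋)
            = CuspForm.heckeAlgebra.T hl hlN (Set.notMem_empty l) := rfl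
        rw [e1, Module.End.mul_apply, Module.End.mul_apply, hιgal, hιT, hιT, hιgal]
        exact congrArg Additive.ofMul (E.galX_op (tdmSysT N l hl hlN) (tdm_prime_pow_ne_zero p k)
          (tkrHeckeUnits N l) (DK.fn_heckeT hDK l hl hlN) (tkrHeckeUnits_sig l) σ _)
      · apply D.end_ext
        intro k x
        have e1 : (⟨CuspForm.heckeULin 2 hqN, Algebra.subset_adjoin
            (Or.inr ⟨q, hqN, hq, Set.notMem_empty q, rfl⟩)⟩ : 𝕋)
            = CuspForm.heckeAlgebra.U hq hqN (Set.notMem_empty q) := rfl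
        rw [e1, Module.End.mul_apply, Module.End.mul_apply, hιgal, hιU, hιU, hιgal]
        exact congrArg Additive.ofMul (E.galX_op (tdmSysU N q hqN hq.ne_zero)
          (tdm_prime_pow_ne_zero p k)
          (tkrHeckeUUnits N q) (DK.fn_heckeU hDK q hq hqN) (tkrHeckeUUnits_sig q) σ _)
    | algebraMap r =>
      have e1 : (⟨algebraMap ℤ (Module.End ℂ (CuspForm (Gamma0 N) 2)) r,
          Subalgebra.algebraMap_mem _ r⟩ : 𝕋) = ((r : ℤ) : 𝕋) := by
        apply Subtype.ext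
        simp
      rw [e1, map_intCast]
      exact (Int.cast_commute r (gal σ)).symm.eq
    | add x y hx hy ihx ihy =>
      have e1 : (⟨x + y, add_mem hx hy⟩ : 𝕋) = ⟨x, hx⟩ + ⟨y, hy⟩ := rfl
      rw [e1, map_add, mul_add, add_mul, ihx, ihy]
    | mul x y hx hy ihx ihy =>
      have e1 : (⟨x * y, mul_mem hx hy⟩ : 𝕋) = ⟨x, hx⟩ * ⟨y, hy⟩ := rfl
      rw [e1, map_mul, ← mul_assoc, ihx, mul_assoc, ihy, mul_assoc]
  -- (H2)
  have hcont : ∀ n : ℕ, ∃ L : IntermediateField ℚ Kbar, FiniteDimensional ℚ L ∧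
      ∀ σ : GQ, (∀ x ∈ L, σ x = x) → ∀ v : TT, ∃ w : TT, gal σ v - v = (p : ℤ_[p]) ^ n • w := by
    intro n
    obtain ⟨L, hL, h1⟩ := E.galX_cont (tdm_prime_pow_ne_zero p n) hfix
    refine ⟨L, hL, fun σ hσ v => ?_⟩
    apply D.exists_of_ι_eq_zero n
    rw [map_sub, hιgal, E.galW_apply p, h1 σ hσ, sub_eq_zero]
    rfl
  -- (H3)
  have hunr : ∀ q : ℕ, q.Prime → ¬ q ∣ N → q ≠ p → ∀ P : ValuationSubring Kbar,
      P.LiesOverPrime q → ∀ σ ∈ P.inertiaSubgroupIn ℚ, gal σ = 1 := by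
    intro q hq hqN hqp P hP σ hσ
    apply D.end_ext
    intro k x
    rw [hιgal, E.galW_apply p, Module.End.one_apply,
      E.galX_eq_self (tdm_prime_pow_ne_zero p k) σ (fun y hy =>
        tkr_K3_inertia (hK3 q hq hqN hqp P hP k).1 (hK3 q hq hqN hqp P hP k).2
          (tdm_prime_pow_ne_zero p k) hσ hy)]
    rfl
  -- (H4)
  have hES : ∀ (l : ℕ) (hl : l.Prime) (hlN : ¬ l ∣ N), l ≠ p → ∀ A : ValuationSubring Kbar,
      A.LiesOverPrime l → ∀ σ : GQ, A.IsFrobeniusAt σ l →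
        gal σ * gal σ - hecke (CuspForm.heckeAlgebra.T hl hlN (Set.notMem_empty l)) * gal σ +
          (l : ℤ_[p]) • (1 : Module.End ℤ_[p] TT) = 0 := by
    intro l hl hlN hlp A hA σ hσ
    apply D.end_ext
    intro k x
    have h2 : D.ι k (((l : ℤ_[p]) • (1 : Module.End ℤ_[p] TT)) x) = l • D.ι k x := by
      rw [LinearMap.smul_apply, Module.End.one_apply, Nat.cast_smul_eq_nsmul, map_nsmul]
    have h3 := E.galX_frob (tdmSysT N l hl hlN) (tdm_prime_pow_ne_zero p k) l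
      (tkrHeckeUnits N l) (DK.fn_heckeT hDK l hl hlN) σ (fun y hy hT =>
        tkr_K3_frob (hK3 l hl hlN hlp A hA k).1 (hK3 l hl hlN hlp A hA k).2
          (tdm_prime_pow_ne_zero p k) hl hlN hA hσ hy hT) (Additive.toMul (D.ι k x))
    have h4 : E.galW p k σ (E.galW p k σ (D.ι k x)) + l • D.ι k x
        = MonoidHom.toAdditive ((tdmSysT N l hl hlN).homX (p ^ k)) (E.galW p k σ (D.ι k x)) :=
      congrArg Additive.ofMul h3
    simp only [LinearMap.add_apply, LinearMap.sub_apply, Module.End.mul_apply, map_add, map_sub,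
      hιgal, hιT, h2, LinearMap.zero_apply, map_zero]
    rw [← h4]
    abel
  -- (H3')
  have huni : ∀ q : ℕ, q.Prime → q ≠ p → q ∣ N → ¬ q ^ 2 ∣ N → ∀ P : ValuationSubring Kbar,
      P.LiesOverPrime q → ∀ σ ∈ P.inertiaSubgroupIn ℚ, (gal σ - 1) * (gal σ - 1) = 0 := by
    intro q hq hqp hqN hq2 P hP σ hσ
    apply D.end_ext
    intro k x
    have h3 := E.t2z_galX_unip (tdm_prime_pow_ne_zero p k) σ
      (hU q hq hqp hqN hq2 P hP σ hσ k) (Additive.toMul (D.ι k x))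
    have h4 : E.galW p k σ (E.galW p k σ (D.ι k x)) + D.ι k x
        = 2 • E.galW p k σ (D.ι k x) := congrArg Additive.ofMul h3
    simp only [Module.End.mul_apply, LinearMap.sub_apply, Module.End.one_apply, map_sub, hιgal,
      LinearMap.zero_apply, map_zero]
    rw [two_nsmul] at h4
    rw [sub_sub, sub_eq_zero, ← sub_eq_iff_eq_add]
    rw [← eq_sub_iff_add_eq] at h4
    rw [h4]
    abel
  -- complex conjugation
  have hc : ∀ φ : TT, ((gal complexConjugation φ : TT) : Additive (Gamma0 N) →+ ℤ_[p])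
      = -(charInvolution N ℤ_[p] ℤ_[p] (φ : Additive (Gamma0 N) →+ ℤ_[p])) := by
    intro φ
    set ψ : TT := ⟨-(charInvolution N ℤ_[p] ℤ_[p] (φ : Additive (Gamma0 N) →+ ℤ_[p])),
      (parabolicHoms ℤ_[p] (Gamma0 N) ℤ_[p]).neg_mem
        (charInvolution_mem_parabolicHoms N ℤ_[p] ℤ_[p] φ.2)⟩ with hψ
    have h1 : gal complexConjugation φ = ψ := by
      apply D.ext_elem
      intro k
      rw [hιgal, tdm_ι_conj p k φ ψ rfl, E.galW_apply p,
        E.galX_conj (tdm_prime_pow_ne_zero p k) complexConjugation hconj]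
      rfl
    rw [h1]
  refine ⟨TT, inferInstance, inferInstance, inferInstance, inferInstance, gal, hecke, hcomm, hcont,
    hunr, hES, huni, fun 𝒪 _ _ _ _ _ lam => ⟨h5 𝒪 lam, ?_⟩⟩
  obtain ⟨v, hv, hvz⟩ := h6 (gal complexConjugation) hc 𝒪 lam
  exact ⟨complexConjugation, v, hv, hvz⟩

end Package

variable (p : ℕ) [hp : Fact p.Prime] (N : ℕ) [NeZero N]

/-- **the Tate module package with (H3') from the dictionary, (K3) and T2-G** -/
theorem t2z_package_of_dict (DK : TdmDict Kbar N) (hDK : DK.toMer = KMod.toMer Kbar N)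
    (DC : TdmDictC N) (E : TdmDescent N DK DC)
    (hK3 : ∀ q : ℕ, q.Prime → ¬ q ∣ N → q ≠ p → ∀ A : ValuationSubring Kbar,
      A.LiesOverPrime q → ∀ k : ℕ, TkrK12 N (p ^ k) A ∧ TkrNormal N A)
    (hU : ∀ q : ℕ, q.Prime → q ≠ p → q ∣ N → ¬ q ^ 2 ∣ N → ∀ A : ValuationSubring Kbar,
      A.LiesOverPrime q → ∀ σ ∈ A.inertiaSubgroupIn ℚ, ∀ k : ℕ,
      ∀ y : (↥(modularFunctionFieldBar N))ˣ, y ∈ tWsub Kbar N (p ^ k) →
        ∃ t : (↥(modularFunctionFieldBar N))ˣ,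
          tkrSig N σ (tkrSig N σ y) * y = tkrSig N σ y ^ 2 * t ^ (p ^ k)) :
    T2zPackage p N := by
  refine t2z_package p N DK hDK DC E ?_ (tdd_exists_finite_fixing N) hK3 hU (tdmHeckeP p N)
    (tdmHeckeP_T p N) (tdmHeckeP_U p N) ?_ ?_
  · intro y
    rw [TdmDict.fn_apply, TdmDict.fn_apply, hDK]
    exact tdd_toMer_conj N y
  · intro 𝒪 _ _ _ _ _ lam
    exact ter_finrank_teEigen (tdmHecke N) (tdmPhi N) (tdmHecke_spec N) (tdmBC N ℤ_[p])
      (tdmHeckeP p N) (tdmHeckeP_he p N) lam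
  · intro w hw 𝒪 _ _ _ _ _ lam
    refine ter_exists_not_scalar_teEigen_neg (tdmHecke N) (tdmPhi N) (tdmHecke_spec N)
      (tdmW N ℤ ℤ) (tdmW_spec N) (tdmBC N ℤ_[p]) (tdmHeckeP p N) (tdmHeckeP_he p N) lam w ?_
    intro x
    apply Subtype.ext
    rw [hw, LinearMap.baseChange_neg, LinearMap.neg_apply, map_neg, tdmBC_tdmW]
    rfl

end

end Fermat.Agent.T1
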