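/-
T2-E (helper4), file 4: **statement S34 from the output of T2-G**.
`T2zUnip` is the exact shape of T2-G's `t2g_unipotent` (the Kummer-theoretic `(σ - 1)² = 0` for `σ` in
an inertia group at `q ∥ N`, `q ≠ p`, on the groups `tWsub ℚ̄ N (p^k)` modulo `p^k`-th powers);
`t2z_S34_of_unip : T2zUnip → (statement S34)` is the whole assembly: dictionary + descent + (K3)
(all unconditional, as in `Fermat/Agent/S30.lean`) ⟹ `T2zPackage p N` ⟹ `T2zS30U` ⟹ S34 by the trace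
argument (`s34_of_s30u`) and the reducedness of the Hecke algebra (`s31_hecke_reduced`).
-/
import Mathlib
import Fermat.Agent.Lib.T2.Asm.Package
import Fermat.Agent.Lib.T2.Asm.S34Trace
import Fermat.Agent.Lib.T1.Dict.DescentSurj
import Fermat.Agent.Lib.T1.Asm.Res.Extension
import Fermat.Agent.Lib.T1.Kron.K3Bridge
import Fermat.Agent.Lib.T1.S18.AllLevels
import Fermat.Agent.Lib.S31.Petersson.Diag

set_option autoImplicit false

namespace Fermat.Agent.T2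

open IsLocalRing CuspForm CuspForm.HeckeGaloisRepDatum Fermat.Agent.T1 Fermat.Agent.S24Lib
open ModularCurve ModularCurve.Period

/-- **the output of T2-G**: for `q ∥ N`, `q ≠ p`, `σ` in an inertia group at `q` and `y` in the Kummer
group `tWsub ℚ̄ N (p^k)`: `σ(σ y) · y = (σ y)² · t^(p^k)` -/
def T2zUnip : Prop :=
  ∀ (p : ℕ) [Fact p.Prime] (N : ℕ) [NeZero N],
    ∀ q : ℕ, q.Prime → q ≠ p → q ∣ N → ¬ q ^ 2 ∣ N →
      ∀ A : ValuationSubring (AlgebraicClosure ℚ), A.LiesOverPrime q →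
        ∀ σ ∈ A.inertiaSubgroupIn ℚ, ∀ k : ℕ,
          ∀ y : (↥(modularFunctionFieldBar N))ˣ, y ∈ tWsub (AlgebraicClosure ℚ) N (p ^ k) →
            ∃ t : (↥(modularFunctionFieldBar N))ˣ,
              tkrSig N σ (tkrSig N σ y) * y = tkrSig N σ y ^ 2 * t ^ (p ^ k)

/-- the Tate module package of `J₀(N)` with (H3'), from T2-G -/
theorem t2z_package_all (hU : T2zUnip) (p : ℕ) [Fact p.Prime] (N : ℕ) [NeZero N] :
    T2zPackage p N :=
  t2z_package_of_dict p N (tddDict (AlgebraicClosure ℚ) N)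
    (tddDict_toMer (AlgebraicClosure ℚ) N)
    (tddDictC N (tddDict ℂ N) (tddDict_toMer ℂ N))
    (tddDescent N)
    (tkr_hK3_of_inputs N
      (fun 𝔓 _ _ hM H hH => tbq_allLevelsOK 𝔓 _ hM H hH)
      (fun 𝔓 _ _ hM h49 => tkr_barOK 𝔓 h49 hM) p Fact.out)
    (hU p N)

/-- statement S30 with unipotent inertia at `q ∥ N`, from T2-G -/
theorem t2z_S30U_of_unip (hU : T2zUnip) : T2zS30U :=
  t2z_S30U (fun p _ N _ => t2z_package_all hU p N)

/-- **statement S34 from T2-G** -/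
theorem t2z_S34_of_unip (hU : T2zUnip)
    {𝒪 : Type} [CommRing 𝒪] [IsDomain 𝒪] [IsDiscreteValuationRing 𝒪]
    [IsAdicComplete (maximalIdeal 𝒪) 𝒪] [Finite (ResidueField 𝒪)] [CharZero 𝒪]
    {p : ℕ} (hp : p.Prime) (hp𝒪 : (p : 𝒪) ∈ maximalIdeal 𝒪)
    {N : ℕ} [NeZero N] {S : Finset ℕ} (hpS : p ∈ S) (hNS : ∀ q : ℕ, q.Prime → q ∣ N → q ∈ S)
    {θ : CuspForm.heckeAlgebra N 2 (↑S : Set ℕ) →+* ResidueField 𝒪}
    {T : Type} [CommRing T] [IsLocalRing T] [IsNoetherianRing T]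
    [IsAdicComplete (maximalIdeal T) T] [Algebra 𝒪 T] [IsLocalHom (algebraMap 𝒪 T)]
    [Module.Finite 𝒪 T] [Module.Free 𝒪 T]
    (H : CuspForm.HeckeGaloisRepDatum N (↑S : Set ℕ) 𝒪 θ T)
    (q : ℕ) (hq : q.Prime) (hqp : q ≠ p) (hqN : q ∣ N) (hq2 : ¬ q ^ 2 ∣ N) :
    H.ρ.IsUnipotentOnInertiaAt q :=
  s34_of_s30u (t2z_S30U_of_unip hU)
    (Fermat.Agent.S31P.s31_hecke_reduced (S := (↑S : Set ℕ)) hNS) hp hp𝒪 hpS hNS H q hq hqp hqN hq2

end Fermat.Agent.T2
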